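import Fermat.Agent.S15.M1.Psi.Super
import Fermat.Agent.S15.M1a.Deg2

/-!
# S15 / M1 / route PSI : half periods, `e₁, e₂, e₃`, the discriminant
-/

set_option autoImplicit false

noncomputable section

namespace Fermat.Agent.S15.M1.Psi

open PeriodPair Fermat.Agent.S15.M1a

/-- the discriminant of a lattice. -/
def disc (L : PeriodPair) : ℂ := L.g₂ ^ 3 - 27 * L.g₃ ^ 2

/-- `w₁, w₂, w₃` represent the three non zero classes of `(1/2)Λ/Λ`. -/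
structure IsHalf (L : PeriodPair) (w₁ w₂ w₃ : ℂ) : Prop where
  notMem₁ : w₁ ∉ L.lattice
  notMem₂ : w₂ ∉ L.lattice
  notMem₃ : w₃ ∉ L.lattice
  two₁ : 2 * w₁ ∈ L.lattice
  two₂ : 2 * w₂ ∈ L.lattice
  two₃ : 2 * w₃ ∈ L.lattice
  sub₁₂ : w₁ - w₂ ∉ L.lattice
  sub₁₃ : w₁ - w₃ ∉ L.lattice
  sub₂₃ : w₂ - w₃ ∉ L.lattice

/-- **(H0)** PROOF: `L.ω₁_div_two_notMem_lattice`, `L.ω₂_div_two_notMem_lattice`; in general
`PeriodPair.mul_ω₁_add_mul_ω₂_mem_lattice : α ω₁ + β ω₂ ∈ Λ ↔ α, β integers` (for `α β : ℚ`; see its statement in Mathlib) with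
`(α, β) = (1/2, 1/2), (1/2, -1/2), (0, -1/2), (-1/2, 0)...`; `2 * (ω₁/2) = ω₁ ∈ Λ` etc. -/
theorem isHalf_std (L : PeriodPair) : IsHalf L (L.ω₁ / 2) (L.ω₂ / 2) ((L.ω₁ + L.ω₂) / 2) := by
  have aux : ∀ (α β : ℚ), ¬ (α.den = 1 ∧ β.den = 1) → ∀ z : ℂ, z = α * L.ω₁ + β * L.ω₂ →
      z ∉ L.lattice := by
    intro α β h z hz
    rw [hz]
    exact (PeriodPair.mul_ω₁_add_mul_ω₂_mem_lattice (L := L) (α := α) (β := β)).not.mpr h
  refine ⟨L.ω₁_div_two_notMem_lattice, L.ω₂_div_two_notMem_lattice, ?_, ?_, ?_, ?_, ?_, ?_, ?_⟩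
  · exact aux (1 / 2) (1 / 2) (by norm_num) _ (by push_cast; ring)
  · have : 2 * (L.ω₁ / 2) = L.ω₁ := by ring
    rw [this]; exact L.ω₁_mem_lattice
  · have : 2 * (L.ω₂ / 2) = L.ω₂ := by ring
    rw [this]; exact L.ω₂_mem_lattice
  · have : 2 * ((L.ω₁ + L.ω₂) / 2) = L.ω₁ + L.ω₂ := by ring
    rw [this]; exact add_mem L.ω₁_mem_lattice L.ω₂_mem_lattice
  · exact aux (1 / 2) (-1 / 2) (by norm_num) _ (by push_cast; ring)
  · exact aux 0 (-1 / 2) (by norm_num) _ (by push_cast; ring)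
  · exact aux (-1 / 2) 0 (by norm_num) _ (by push_cast; ring)

namespace IsHalf

variable {L : PeriodPair} {w₁ w₂ w₃ : ℂ}

/-- **(H1)** the `e_i` are roots of the cubic and pairwise distinct.  PROOF: `℘' w_i = 0` (`wp'_eq_zero_iff`) and
`L.derivWeierstrassP_sq`; distinct: `wp_eq_iff` (`w_i + w_j = (w_i - w_j) + 2 w_j`). -/
theorem roots (h : IsHalf L w₁ w₂ w₃) :
    (4 * ℘[L] w₁ ^ 3 - L.g₂ * ℘[L] w₁ - L.g₃ = 0 ∧ 4 * ℘[L] w₂ ^ 3 - L.g₂ * ℘[L] w₂ - L.g₃ = 0 ∧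
      4 * ℘[L] w₃ ^ 3 - L.g₂ * ℘[L] w₃ - L.g₃ = 0) ∧
    (℘[L] w₁ ≠ ℘[L] w₂ ∧ ℘[L] w₁ ≠ ℘[L] w₃ ∧ ℘[L] w₂ ≠ ℘[L] w₃) := by
  have hp1 : ℘'[L] w₁ = 0 := (wp'_eq_zero_iff L h.notMem₁).2 h.two₁
  have hp2 : ℘'[L] w₂ = 0 := (wp'_eq_zero_iff L h.notMem₂).2 h.two₂
  have hp3 : ℘'[L] w₃ = 0 := (wp'_eq_zero_iff L h.notMem₃).2 h.two₃
  have e1 := L.derivWeierstrassP_sq w₁ h.notMem₁
  have e2 := L.derivWeierstrassP_sq w₂ h.notMem₂
  have e3 := L.derivWeierstrassP_sq w₃ h.notMem₃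
  rw [hp1] at e1
  rw [hp2] at e2
  rw [hp3] at e3
  refine ⟨⟨by rw [← e1]; ring, by rw [← e2]; ring, by rw [← e3]; ring⟩, ?_, ?_, ?_⟩
  · intro heq
    rcases (wp_eq_iff L h.notMem₁ h.notMem₂).1 heq with h' | h'
    · exact h.sub₁₂ h'
    · refine h.sub₁₂ ?_
      have := sub_mem h' h.two₂
      convert this using 1
      ring
  · intro heq
    rcases (wp_eq_iff L h.notMem₁ h.notMem₃).1 heq with h' | h'
    · exact h.sub₁₃ h'
    · refine h.sub₁₃ ?_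
      have := sub_mem h' h.two₃
      convert this using 1
      ring
  · intro heq
    rcases (wp_eq_iff L h.notMem₂ h.notMem₃).1 heq with h' | h'
    · exact h.sub₂₃ h'
    · refine h.sub₂₃ ?_
      have := sub_mem h' h.two₃
      convert this using 1
      ring

/-- **(H2)** Vieta.  PURE ALGEBRA from (H1): subtract the equations and cancel `e_i - e_j` (`mul_left_cancel₀`):
`4(e₁²+e₁e₂+e₂²) = g₂ = 4(e₁²+e₁e₃+e₃²)`, so `(e₂-e₃)(e₁+e₂+e₃) = 0`. -/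
theorem vieta (h : IsHalf L w₁ w₂ w₃) :
    ℘[L] w₁ + ℘[L] w₂ + ℘[L] w₃ = 0 ∧
    L.g₂ = -4 * (℘[L] w₁ * ℘[L] w₂ + ℘[L] w₁ * ℘[L] w₃ + ℘[L] w₂ * ℘[L] w₃) ∧
    L.g₃ = 4 * (℘[L] w₁ * ℘[L] w₂ * ℘[L] w₃) := by
  obtain ⟨⟨h1, h2, h3⟩, h12, h13, h23⟩ := h.roots
  generalize ℘[L] w₁ = e₁ at *
  generalize ℘[L] w₂ = e₂ at *
  generalize ℘[L] w₃ = e₃ at *
  generalize L.g₂ = g₂ at *
  generalize L.g₃ = g₃ at *
  have a12 : 4 * (e₁ ^ 2 + e₁ * e₂ + e₂ ^ 2) - g₂ = 0 := by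
    apply mul_left_cancel₀ (sub_ne_zero.2 h12)
    linear_combination h1 - h2
  have a13 : 4 * (e₁ ^ 2 + e₁ * e₃ + e₃ ^ 2) - g₂ = 0 := by
    apply mul_left_cancel₀ (sub_ne_zero.2 h13)
    linear_combination h1 - h3
  have hsum : e₁ + e₂ + e₃ = 0 := by
    apply mul_left_cancel₀ (sub_ne_zero.2 h23)
    linear_combination (1 / 4 : ℂ) * a12 - (1 / 4 : ℂ) * a13
  have he3 : e₃ = -e₁ - e₂ := by linear_combination hsum
  subst he3
  refine ⟨hsum, ?_, ?_⟩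
  · linear_combination -a12
  · linear_combination -h1 + e₁ * a12

/-- **(H3)** PROOF: (H2), eliminate `e₃ = -e₁-e₂`, `ring`. -/
theorem disc_eq (h : IsHalf L w₁ w₂ w₃) :
    disc L = 16 * ((℘[L] w₁ - ℘[L] w₂) * (℘[L] w₁ - ℘[L] w₃) * (℘[L] w₂ - ℘[L] w₃)) ^ 2 := by
  obtain ⟨hsum, hg2, hg3⟩ := h.vieta
  unfold disc
  rw [hg2, hg3]
  have he3 : ℘[L] w₃ = -℘[L] w₁ - ℘[L] w₂ := by linear_combination hsum
  rw [he3]
  ring

theorem disc_ne_zero (h : IsHalf L w₁ w₂ w₃) : disc L ≠ 0 := by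
  rw [h.disc_eq]
  obtain ⟨-, h12, h13, h23⟩ := h.roots
  exact mul_ne_zero (by norm_num)
    (pow_ne_zero 2 (mul_ne_zero (mul_ne_zero (sub_ne_zero.2 h12) (sub_ne_zero.2 h13)) (sub_ne_zero.2 h23)))

/-- **(H4)** PROOF: unfold `wpp`, (H2), (H3), eliminate `e₃`, `ring`.  [`wpp w₁ = 2 (e₁-e₂)(e₁-e₃)` etc.] -/
theorem prod_wpp (h : IsHalf L w₁ w₂ w₃) : wpp L w₁ * wpp L w₂ * wpp L w₃ = - disc L / 2 := by
  obtain ⟨hsum, hg2, hg3⟩ := h.vieta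
  unfold disc wpp
  rw [hg2, hg3]
  have he3 : ℘[L] w₃ = -℘[L] w₁ - ℘[L] w₂ := by linear_combination hsum
  rw [he3]
  ring

/-- **(H5)** translation by one half period.  `w` a half period, `e = ℘ w`.  PROOF.  `z ∉ Λ` (else `2 z ∈ Λ`), `℘ z ≠ ℘ w` (`wp_eq_iff`:
`z ∓ w ∈ Λ` gives `2 z = 2 (z ∓ w) ± 2 w ∈ Λ`).  `x := ℘ z`, `P := ℘' z`, `℘' w = 0`.
`add_x`: `℘(z+w) = (P/(x-e))²/4 - x - e`;  `add_y`: `(x-e) ℘'(z+w) = -(P (℘(z+w) - x) + P (x-e)) = -P (℘(z+w) - e)`.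
With `P² = 4x³-g₂x-g₃`, `0 = 4e³-g₂e-g₃`: `P² = (x-e)(4(x²+xe+e²)-g₂)`, so
`℘(z+w) - e = (x²+xe+e²-g₂/4)/(x-e) - x - 2e = (3e² - g₂/4)/(x-e) = (wpp w / 2)/(x-e)`.  `field_simp`, `linear_combination`. -/
theorem _root_.Fermat.Agent.S15.M1.Psi.wp'_add_half (L : PeriodPair) {w z : ℂ} (hw : w ∉ L.lattice) (h2w : 2 * w ∈ L.lattice)
    (h2z : 2 * z ∉ L.lattice) :
    ℘'[L] (z + w) * (℘[L] z - ℘[L] w) ^ 2 = - (wpp L w / 2) * ℘'[L] z := by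
  have hz : z ∉ L.lattice := fun h => h2z (by rw [two_mul]; exact add_mem h h)
  have hne : ℘[L] z ≠ ℘[L] w := by
    intro h
    rcases (wp_eq_iff L hz hw).1 h with h1 | h1
    · apply h2z
      have e : 2 * z = (z - w) + (z - w) + 2 * w := by ring
      rw [e]
      exact add_mem (add_mem h1 h1) h2w
    · apply h2z
      have e : 2 * z = (z + w) + (z + w) - 2 * w := by ring
      rw [e]
      exact sub_mem (add_mem h1 h1) h2w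
  have hw' : ℘'[L] w = 0 := (wp'_eq_zero_iff L hw).2 h2w
  have hx := add_x L hz hw hne
  have hy := add_y L hz hw hne
  have c1 := L.derivWeierstrassP_sq z hz
  have c2 := L.derivWeierstrassP_sq w hw
  rw [hw'] at hx hy c2
  have hd : ℘[L] z - ℘[L] w ≠ 0 := sub_ne_zero.2 hne
  unfold wpp
  generalize ℘[L] (z + w) = X3 at *
  generalize ℘'[L] (z + w) = Y3 at *
  generalize ℘[L] z = x at *
  generalize ℘[L] w = e at *
  generalize ℘'[L] z = P at *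
  generalize L.g₂ = g₂ at *
  generalize L.g₃ = g₃ at *
  have hx' : 4 * (x - e) ^ 2 * X3 = P ^ 2 - 4 * (x + e) * (x - e) ^ 2 := by
    rw [hx]
    field_simp
    ring
  have key : 4 * (x - e) * (X3 - e) = 12 * e ^ 2 - g₂ := by
    apply mul_left_cancel₀ hd
    linear_combination hx' + c1 - c2
  linear_combination (x - e) * hy - (P / 4) * key

/-- **(H6)** PROOF: multiply the three instances of (H5); `∏ (x - e_i)² = (P²/4)²` because `P² = 4(x-e₁)(x-e₂)(x-e₃)` ((H2) +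
`L.derivWeierstrassP_sq`); `∏ wpp w_i = -disc/2` (H4); `P ≠ 0` (`wp'_eq_zero_iff`), `x ≠ e_i`.  So
`∏ ℘'(z+w_i) * P⁴/16 = (disc/16) P³`. -/
theorem prod_wp'_add (h : IsHalf L w₁ w₂ w₃) {z : ℂ} (h2z : 2 * z ∉ L.lattice) :
    ℘'[L] (z + w₁) * ℘'[L] (z + w₂) * ℘'[L] (z + w₃) * ℘'[L] z = disc L := by
  have hz : z ∉ L.lattice := fun h0 => h2z (by rw [two_mul]; exact add_mem h0 h0)
  have hP : ℘'[L] z ≠ 0 := fun h0 => h2z ((wp'_eq_zero_iff L hz).1 h0)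
  have a1 := wp'_add_half L h.notMem₁ h.two₁ h2z
  have a2 := wp'_add_half L h.notMem₂ h.two₂ h2z
  have a3 := wp'_add_half L h.notMem₃ h.two₃ h2z
  obtain ⟨v1, v2, v3⟩ := h.vieta
  have c1 := L.derivWeierstrassP_sq z hz
  have hW := h.prod_wpp
  generalize ℘'[L] (z + w₁) = Y1 at *
  generalize ℘'[L] (z + w₂) = Y2 at *
  generalize ℘'[L] (z + w₃) = Y3 at *
  generalize wpp L w₁ = W1 at *
  generalize wpp L w₂ = W2 at *
  generalize wpp L w₃ = W3 at *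
  generalize ℘[L] w₁ = e1 at *
  generalize ℘[L] w₂ = e2 at *
  generalize ℘[L] w₃ = e3 at *
  generalize ℘[L] z = x at *
  generalize ℘'[L] z = P at *
  generalize disc L = D at *
  generalize L.g₂ = g₂ at *
  generalize L.g₃ = g₃ at *
  have hfac : P ^ 2 = 4 * ((x - e1) * (x - e2) * (x - e3)) := by
    linear_combination c1 + 4 * x ^ 2 * v1 - x * v2 - v3
  have hP4 : P ^ 4 = 16 * ((x - e1) * (x - e2) * (x - e3)) ^ 2 := by
    have e : P ^ 4 = (P ^ 2) ^ 2 := by ring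
    rw [e, hfac]
    ring
  have hprod : (Y1 * (x - e1) ^ 2) * (Y2 * (x - e2) ^ 2) * (Y3 * (x - e3) ^ 2) =
      (-(W1 / 2) * P) * (-(W2 / 2) * P) * (-(W3 / 2) * P) := by
    rw [a1, a2, a3]
  apply mul_left_cancel₀ (pow_ne_zero 3 hP)
  linear_combination (Y1 * Y2 * Y3) * hP4 + 16 * hprod - 2 * P ^ 3 * hW

/-- **(H7)** half periods of `Λ` are half periods of `Λ'` (odd index).  PROOF: `2 w_i ∈ Λ ⊆ Λ'`; `w_i ∈ Λ'` would give `w_i ∈ Λ` by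
`IsSuper.mem_of_two_mul_mem`; the same for `w_i - w_j` (`2 (w_i - w_j) = 2 w_i - 2 w_j ∈ Λ`). -/
theorem super {L' : PeriodPair} {N : ℕ} {z₀ : ℂ} (hS : IsSuper L L' N z₀) (h : IsHalf L w₁ w₂ w₃) :
    IsHalf L' w₁ w₂ w₃ := by
  refine ⟨fun hw => h.notMem₁ (hS.mem_of_two_mul_mem hw h.two₁),
    fun hw => h.notMem₂ (hS.mem_of_two_mul_mem hw h.two₂),
    fun hw => h.notMem₃ (hS.mem_of_two_mul_mem hw h.two₃),
    hS.le h.two₁, hS.le h.two₂, hS.le h.two₃, ?_, ?_, ?_⟩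
  · intro hw
    refine h.sub₁₂ (hS.mem_of_two_mul_mem hw ?_)
    have := sub_mem h.two₁ h.two₂
    convert this using 1
    ring
  · intro hw
    refine h.sub₁₃ (hS.mem_of_two_mul_mem hw ?_)
    have := sub_mem h.two₁ h.two₃
    convert this using 1
    ring
  · intro hw
    refine h.sub₂₃ (hS.mem_of_two_mul_mem hw ?_)
    have := sub_mem h.two₂ h.two₃
    convert this using 1
    ring

end IsHalf

end Fermat.Agent.S15.M1.Psi
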