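import Fermat.Agent.S15.M1.Psi.Quot
import Fermat.Agent.S15.M1.Psi.Half

/-!
# S15 / M1 / route PSI : the key identity `Δ(Λ') · (∏_{k=1}^{N-1} ℘'_Λ(k z₀))⁴ = Δ(Λ)^N`
-/

set_option autoImplicit false

noncomputable section

namespace Fermat.Agent.S15.M1.Psi

open Filter Topology PeriodPair Fermat.Agent.S15.M1a

variable {L L' : PeriodPair} {N : ℕ} {z₀ : ℂ}

/-- **(D1)** the derivative of the product formula at a half period.  PROOF.  `w ∉ Λ'` (`h.mem_of_two_mul_mem`).  The functions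
`z ↦ ℘'_{Λ'} z * Pi0` and `F` coincide on the open set `Λ'ᶜ` (`wp'_mul_Pi0`; `L'.isClosed_lattice.isOpen_compl.mem_nhds`), so they have
the same derivative at `w` (`HasDerivAt.congr_of_eventuallyEq` + `HasDerivAt.unique`).  Left: `wpp L' w * Pi0` (`hasDerivAt_wp' L'`,
`.mul_const`).  Right: write `F z = ℘'_Λ z * R z`, `R z := ∏_{k ∈ Ico 1 N} ℘'_Λ (z + k z₀)` (`Finset.range_eq_Ico`,
`Finset.prod_eq_prod_Ico_succ_bot h.pos`); `R` is differentiable at `w` (each `w + k z₀ ∉ Λ`: else `w ∈ Λ'`); product rule: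
`F' w = wpp L w * R w + ℘'_Λ w * R' w` and `℘'_Λ w = 0` (`wp'_eq_zero_iff`).  `w + k z₀ = k z₀ + w`. -/
theorem wpp_mul_Pi0 (h : IsSuper L L' N z₀) {w : ℂ} (hw : w ∉ L.lattice) (h2w : 2 * w ∈ L.lattice) :
    wpp L' w * Pi0 L N z₀ = wpp L w * ∏ k ∈ Finset.Ico 1 N, ℘'[L] (k * z₀ + w) := by
  have hw' : w ∉ L'.lattice := fun hm => hw (h.mem_of_two_mul_mem hm h2w)
  have hl : HasDerivAt (fun z => ℘'[L'] z * Pi0 L N z₀) (wpp L' w * Pi0 L N z₀) w :=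
    (hasDerivAt_wp' L' hw').mul_const _
  obtain ⟨R, hR⟩ : ∃ R : ℂ → ℂ, ∀ z, R z = ∏ k ∈ Finset.Ico 1 N, ℘'[L] (z + k * z₀) :=
    ⟨_, fun _ => rfl⟩
  have hRd : DifferentiableAt ℂ R w := by
    have h1 : R = fun z => ∏ k ∈ Finset.Ico 1 N, ℘'[L] (z + k * z₀) := funext hR
    rw [h1]
    refine DifferentiableAt.fun_finsetProd fun k _ => ?_
    have hk' : w + k * z₀ ∉ L.lattice := fun hm => hw' ((h.add_mul_mem_iff w k).mp (h.le hm))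
    have h2 : DifferentiableAt ℂ (fun z : ℂ => z + k * z₀) w := by fun_prop
    exact DifferentiableAt.comp (f := fun z : ℂ => z + k * z₀) w
      (analyticAt_wp' L hk').differentiableAt h2
  have hF : ∀ z, Fprod L N z₀ z = ℘'[L] z * R z := by
    intro z
    rw [Fprod, Finset.range_eq_Ico, Finset.prod_eq_prod_Ico_succ_bot h.pos, hR]
    simp
  have hr : HasDerivAt (fun z => ℘'[L] z * R z) (wpp L w * R w + ℘'[L] w * deriv R w) w :=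
    (hasDerivAt_wp' L hw).fun_mul hRd.hasDerivAt
  have heq : (fun z => ℘'[L'] z * Pi0 L N z₀) =ᶠ[𝓝 w] fun z => ℘'[L] z * R z := by
    filter_upwards [L'.isClosed_lattice.isOpen_compl.mem_nhds hw'] with z hz
    rw [wp'_mul_Pi0 h hz, hF]
  have h3 := (hr.congr_of_eventuallyEq heq).unique hl
  rw [(wp'_eq_zero_iff L hw).mpr h2w, zero_mul, add_zero] at h3
  rw [← h3, hR]
  congr 1
  exact Finset.prod_congr rfl fun k _ => by rw [add_comm]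

/-- **KEY IDENTITY of route PSI.** -/
theorem disc_super (h : IsSuper L L' N z₀) : disc L' * Pi0 L N z₀ ^ 4 = disc L ^ N := by
  have hH := isHalf_std L
  have hH' := hH.super h
  have e1 := wpp_mul_Pi0 h hH.notMem₁ hH.two₁
  have e2 := wpp_mul_Pi0 h hH.notMem₂ hH.two₂
  have e3 := wpp_mul_Pi0 h hH.notMem₃ hH.two₃
  have p' := hH'.prod_wpp
  have p := hH.prod_wpp
  have hk : ∀ k ∈ Finset.Ico 1 N,
      ℘'[L] ((k : ℂ) * z₀ + L.ω₁ / 2) * ℘'[L] ((k : ℂ) * z₀ + L.ω₂ / 2) *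
        ℘'[L] ((k : ℂ) * z₀ + (L.ω₁ + L.ω₂) / 2) * ℘'[L] ((k : ℂ) * z₀) = disc L := by
    intro k hk
    rw [Finset.mem_Ico] at hk
    exact hH.prod_wp'_add (h.two_mul_notMem (by omega) hk.2)
  have hprod : (∏ k ∈ Finset.Ico 1 N, ℘'[L] ((k : ℂ) * z₀ + L.ω₁ / 2)) *
      (∏ k ∈ Finset.Ico 1 N, ℘'[L] ((k : ℂ) * z₀ + L.ω₂ / 2)) *
      (∏ k ∈ Finset.Ico 1 N, ℘'[L] ((k : ℂ) * z₀ + (L.ω₁ + L.ω₂) / 2)) * Pi0 L N z₀
      = disc L ^ (N - 1) := by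
    rw [Pi0, ← Finset.prod_mul_distrib, ← Finset.prod_mul_distrib, ← Finset.prod_mul_distrib,
      Finset.prod_congr rfl hk, Finset.prod_const, Nat.card_Ico]
  have hN : disc L ^ N = disc L * disc L ^ (N - 1) := by
    rw [← pow_succ', Nat.sub_add_cancel h.pos]
  rw [hN, ← hprod]
  generalize (∏ k ∈ Finset.Ico 1 N, ℘'[L] ((k : ℂ) * z₀ + L.ω₁ / 2)) = A1 at *
  generalize (∏ k ∈ Finset.Ico 1 N, ℘'[L] ((k : ℂ) * z₀ + L.ω₂ / 2)) = A2 at *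
  generalize (∏ k ∈ Finset.Ico 1 N, ℘'[L] ((k : ℂ) * z₀ + (L.ω₁ + L.ω₂) / 2)) = A3 at *
  have hd' : disc L' = -2 * (wpp L' (L.ω₁ / 2) * wpp L' (L.ω₂ / 2) * wpp L' ((L.ω₁ + L.ω₂) / 2)) := by
    rw [p']; ring
  have hd : disc L = -2 * (wpp L (L.ω₁ / 2) * wpp L (L.ω₂ / 2) * wpp L ((L.ω₁ + L.ω₂) / 2)) := by
    rw [p]; ring
  rw [hd', hd]
  calc -2 * (wpp L' (L.ω₁ / 2) * wpp L' (L.ω₂ / 2) * wpp L' ((L.ω₁ + L.ω₂) / 2)) * Pi0 L N z₀ ^ 4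
      = -2 * ((wpp L' (L.ω₁ / 2) * Pi0 L N z₀) * (wpp L' (L.ω₂ / 2) * Pi0 L N z₀) *
          (wpp L' ((L.ω₁ + L.ω₂) / 2) * Pi0 L N z₀)) * Pi0 L N z₀ := by ring
    _ = _ := by rw [e1, e2, e3]; ring

end Fermat.Agent.S15.M1.Psi
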