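import Fermat.Agent.S15.M1a.Basic

/-!
# S15 / M1 / route PSI : Liouville's theorem for elliptic functions, in terms of meromorphic orders (pure Mathlib)
-/

set_option autoImplicit false

noncomputable section

namespace Fermat.Agent.S15.M1.Psi

open Filter Topology PeriodPair

variable (L : PeriodPair)

/-- **(LV) Elliptic Liouville.**  A meromorphic `Λ`-periodic function without poles is constant (outside its removable singularities).
PROOF.  `g := toMeromorphicNFOn f Set.univ`.  `hfU : MeromorphicOn f Set.univ := fun z _ => hf z`.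
* `g` is analytic at every `z`: `(meromorphicNFOn_toMeromorphicNFOn f Set.univ (Set.mem_univ z)).meromorphicOrderAt_nonneg_iff_analyticAt.1`,
  with `meromorphicOrderAt_toMeromorphicNFOn hfU (Set.mem_univ z)` and `hord z`.
* `g =ᶠ[𝓝[≠] z] f` : `MeromorphicOn.toMeromorphicNFOn_eq_self_on_nhdsNE hfU (Set.mem_univ z)` (maybe with `.symm`).  So
  `Tendsto f (𝓝[≠] z) (𝓝 (g z))` (continuity of `g`, `Tendsto.congr'`).
* `g (z + l) = g z` for `l ∈ Λ`: both are limits of `f` : `Tendsto f (𝓝[≠] (z + l)) (𝓝 (g (z + l)))`; compose with the translation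
  `w ↦ w + l`, which maps `𝓝[≠] z` to `𝓝[≠] (z + l)` (`tendsto_nhdsWithin_iff`, continuity + injectivity), use `hper`, and
  `tendsto_nhds_unique` (`𝓝[≠] z` is `NeBot` in `ℂ`).
* `g` is differentiable and its range is bounded: `IsZLattice.isCompact_range_of_periodic L.lattice g (continuity) (periodicity)`
  (see the end of Mathlib's `Mathlib/Analysis/SpecialFunctions/Elliptic/Weierstrass.lean`, `relation_eq_zero`, for the exact usage),
  `.isBounded`; `Differentiable.apply_eq_apply_of_bounded` gives `g z = g 0`.  Take `c := g 0`. -/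
theorem exists_const_of_order_nonneg {f : ℂ → ℂ} (hf : Meromorphic f)
    (hper : ∀ l ∈ L.lattice, ∀ z, f (z + l) = f z)
    (hord : ∀ z, 0 ≤ meromorphicOrderAt f z) :
    ∃ c : ℂ, ∀ z, Tendsto f (𝓝[≠] z) (𝓝 c) := by
  have hfU : MeromorphicOn f Set.univ := fun z _ => hf z
  set g := toMeromorphicNFOn f Set.univ with hg
  have han : ∀ z, AnalyticAt ℂ g z := fun z =>
    (meromorphicNFOn_toMeromorphicNFOn f Set.univ
      (Set.mem_univ z)).meromorphicOrderAt_nonneg_iff_analyticAt.1
      (by rw [meromorphicOrderAt_toMeromorphicNFOn hfU (Set.mem_univ z)]; exact hord z)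
  have heq : ∀ z, g =ᶠ[𝓝[≠] z] f := fun z =>
    MeromorphicOn.toMeromorphicNFOn_eq_self_on_nhdsNE hfU (Set.mem_univ z)
  have hlim : ∀ z, Tendsto f (𝓝[≠] z) (𝓝 (g z)) := fun z =>
    (((han z).continuousAt.tendsto).mono_left nhdsWithin_le_nhds).congr' (heq z)
  have hgper : ∀ z w, w ∈ L.lattice → g (z + w) = g z := by
    intro z l hl
    have htr : Tendsto (fun w : ℂ => w + l) (𝓝[≠] z) (𝓝[≠] (z + l)) := by
      rw [tendsto_nhdsWithin_iff]
      refine ⟨?_, ?_⟩
      · have hc : ContinuousAt (fun w : ℂ => w + l) z := by fun_prop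
        exact hc.tendsto.mono_left nhdsWithin_le_nhds
      · filter_upwards [self_mem_nhdsWithin] with w hw
        intro h
        exact hw (add_right_cancel h)
    have h1 : Tendsto (fun w => f (w + l)) (𝓝[≠] z) (𝓝 (g (z + l))) := (hlim (z + l)).comp htr
    have h2 : (fun w => f (w + l)) = f := funext fun w => hper l hl w
    rw [h2] at h1
    exact tendsto_nhds_unique h1 (hlim z)
  have hdiff : Differentiable ℂ g := fun z => (han z).differentiableAt
  have hbdd := (IsZLattice.isCompact_range_of_periodic L.lattice g hdiff.continuous hgper).isBounded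
  refine ⟨g 0, fun z => ?_⟩
  rw [← hdiff.apply_eq_apply_of_bounded hbdd z 0]
  exact hlim z

end Fermat.Agent.S15.M1.Psi
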