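import Fermat.Agent.S15.M1a.Deg2

/-!
# S15 / M1 / route PSI : the orders of `℘'` at all points
-/

set_option autoImplicit false

noncomputable section

namespace Fermat.Agent.S15.M1.Psi

open Filter Topology PeriodPair Fermat.Agent.S15.M1a

variable (L : PeriodPair)

/-- **(O1)** triple pole at the lattice points.  PROOF: `L.order_weierstrassP z hz : meromorphicOrderAt ℘[L] z = -2` (check the exact
form of the cast), `meromorphicOrderAt_deriv_eq_sub_one (n := -2) (by norm_num)`, `L.deriv_weierstrassP : deriv ℘[L] = ℘'[L]`. -/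
theorem order_wp'_of_mem {z : ℂ} (hz : z ∈ L.lattice) : meromorphicOrderAt ℘'[L] z = ((-3 : ℤ) : WithTop ℤ) := by
  have h := L.order_weierstrassP z hz
  have h' : meromorphicOrderAt ℘[L] z = ((-2 : ℤ) : WithTop ℤ) := by
    rw [h]
    rfl
  have h2 := meromorphicOrderAt_deriv_eq_sub_one (n := -2) (by norm_num) h'
  rw [L.deriv_weierstrassP] at h2
  rw [h2]
  norm_num

/-- **(O2)** simple zero at the half periods.  PROOF: `℘'` is analytic at `z` (`analyticAt_wp'`), `℘' z = 0` (`wp'_eq_zero_iff`), its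
derivative at `z` is `wpp L z` (`hasDerivAt_wp'`), which is `≠ 0` (`no_double`).  `AnalyticAt.meromorphicOrderAt_eq` +
`AnalyticAt.analyticOrderAt_eq_one_of_zero_deriv_ne_zero` (name as used in `Fermat/Agent/S24/JLocal.lean`; it may be a repo lemma: then
reprove it: `analyticOrderAt = 1` iff `f z = 0` and `deriv f z ≠ 0`, e.g. via `AnalyticAt.analyticOrderAt_deriv_add_one` or
`natCast_le_analyticOrderAt`/`analyticOrderAt_eq_natCast`), or directly `meromorphicOrderAt_eq_int_iff` with `g := dslope ℘' z`. -/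
theorem order_wp'_half {z : ℂ} (hz : z ∉ L.lattice) (h2 : 2 * z ∈ L.lattice) :
    meromorphicOrderAt ℘'[L] z = ((1 : ℤ) : WithTop ℤ) := by
  have ha := analyticAt_wp' L hz
  have h0 : ℘'[L] z = 0 := (wp'_eq_zero_iff L hz).2 h2
  have hd : deriv ℘'[L] z ≠ 0 := by
    rw [(hasDerivAt_wp' L hz).deriv]
    exact fun h => no_double L hz h0 h
  rw [ha.meromorphicOrderAt_eq, ha.analyticOrderAt_eq_one_of_zero_deriv_ne_zero h0 hd]
  rfl

/-- **(O3)** PROOF: `z ∉ Λ` (else `2 z ∈ Λ`), `℘'` analytic at `z` and `≠ 0` there (`wp'_eq_zero_iff`):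
`AnalyticAt.meromorphicOrderAt_eq`, `AnalyticAt.analyticOrderAt_eq_zero`. -/
theorem order_wp'_generic {z : ℂ} (h2 : 2 * z ∉ L.lattice) : meromorphicOrderAt ℘'[L] z = 0 := by
  have hz : z ∉ L.lattice := by
    intro hz
    apply h2
    rw [two_mul]
    exact add_mem hz hz
  have ha := analyticAt_wp' L hz
  have h0 : ℘'[L] z ≠ 0 := fun h => h2 ((wp'_eq_zero_iff L hz).1 h)
  rw [ha.meromorphicOrderAt_eq, ha.analyticOrderAt_eq_zero.2 h0]
  rfl

/-- **(O4)** leading coefficient at `0`.  PROOF: `L.derivWeierstrassPExcept_sub (0 : L.lattice) z` (or `derivWeierstrassPExcept_def`):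
`℘' z = ℘'[L - 0] z - 2 / z ^ 3`, so for `z ≠ 0`: `z ^ 3 * ℘' z = z ^ 3 * ℘'[L - 0] z - 2`; `℘'[L - 0]` is continuous at `0`
(`L.analyticAt_derivWeierstrassPExcept 0`). -/
theorem tendsto_cube_mul_wp' : Tendsto (fun z => z ^ 3 * ℘'[L] z) (𝓝[≠] 0) (𝓝 (-2)) := by
  have hc : ContinuousAt ℘'[L - (0 : ℂ)] 0 := (L.analyticAt_derivWeierstrassPExcept 0).continuousAt
  have h1 : Tendsto (fun z : ℂ => z ^ 3 * ℘'[L - (0 : ℂ)] z - 2) (𝓝[≠] 0) (𝓝 (-2)) := by
    have h2 : ContinuousAt (fun z : ℂ => z ^ 3 * ℘'[L - (0 : ℂ)] z - 2) 0 := by fun_prop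
    have h3 := h2.tendsto.mono_left (nhdsWithin_le_nhds (s := {0}ᶜ))
    simpa using h3
  refine h1.congr' ?_
  filter_upwards [self_mem_nhdsWithin] with z hz
  have hz0 : z ≠ 0 := hz
  have h4 := L.derivWeierstrassPExcept_sub (0 : L.lattice) z
  simp only [ZeroMemClass.coe_zero, sub_zero] at h4
  rw [← h4]
  field_simp

end Fermat.Agent.S15.M1.Psi
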