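import Fermat.Agent.S15.M1a.Basic

/-!
# S15 / M1 / route PSI : cyclic overlattices of odd index (elementary algebra, no analysis)
-/

set_option autoImplicit false

noncomputable section

namespace Fermat.Agent.S15.M1.Psi

open PeriodPair

/-- `Λ' = Λ + ℤ z₀`, cyclic of odd order `N` over `Λ`. -/
structure IsSuper (L L' : PeriodPair) (N : ℕ) (z₀ : ℂ) : Prop where
  odd : Odd N
  le : L.lattice ≤ L'.lattice
  mem : z₀ ∈ L'.lattice
  exists_mem : ∀ z ∈ L'.lattice, ∃ k : ℕ, k < N ∧ z + k * z₀ ∈ L.lattice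
  notMem : ∀ k : ℕ, 0 < k → k < N → (k : ℂ) * z₀ ∉ L.lattice

namespace IsSuper

variable {L L' : PeriodPair} {N : ℕ} {z₀ : ℂ}

theorem pos (h : IsSuper L L' N z₀) : 0 < N := h.odd.pos

/-- **(S1)** PROOF: `exists_mem (-(N z₀))`?  Simpler: apply `exists_mem` to `z₀ * 0 = 0`... no: apply it to `z := z₀` (if `N = 1`, `k = 0` and
`z₀ ∈ Λ`): `z₀ + k z₀ = (k+1) z₀ ∈ Λ` with `0 < k + 1 ≤ N`; `notMem` forces `k + 1 = N`. -/
theorem natCast_mul_mem (h : IsSuper L L' N z₀) : (N : ℂ) * z₀ ∈ L.lattice := by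
  obtain ⟨k, hk, hmem⟩ := h.exists_mem z₀ h.mem
  have e : z₀ + (k : ℂ) * z₀ = ((k + 1 : ℕ) : ℂ) * z₀ := by push_cast; ring
  rw [e] at hmem
  by_cases hkN : k + 1 = N
  · rw [← hkN]; exact hmem
  · exact absurd hmem (h.notMem (k + 1) (Nat.succ_pos k) (by omega))

/-- **(S2)** PROOF: write `m = N * (m / N) + m % N` (`Int.emod_emod_of_dvd`, `Int.mul_ediv_add_emod`), `0 ≤ m % N < N`;
`(N (m/N)) z₀ = (m/N) • (N z₀) ∈ Λ` by (S1) (`zsmul_mem`, `zsmul_eq_mul`); so `m z₀ ∈ Λ ↔ (m % N) z₀ ∈ Λ`, and by `notMem`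
(with `k := (m % N).toNat`) this holds iff `m % N = 0`. -/
theorem intCast_mul_mem_iff (h : IsSuper L L' N z₀) (m : ℤ) : (m : ℂ) * z₀ ∈ L.lattice ↔ (N : ℤ) ∣ m := by
  have hN : (0 : ℤ) < (N : ℤ) := by exact_mod_cast h.pos
  have hq : ∀ q : ℤ, ((N : ℤ) * q : ℤ) * z₀ ∈ L.lattice := by
    intro q
    have h1 := zsmul_mem h.natCast_mul_mem q
    have e : q • ((N : ℂ) * z₀) = (((N : ℤ) * q : ℤ) : ℂ) * z₀ := by
      rw [zsmul_eq_mul]; push_cast; ring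
    rw [e] at h1
    exact_mod_cast h1
  constructor
  · intro hm
    have h0 : 0 ≤ m % (N : ℤ) := Int.emod_nonneg _ hN.ne'
    have h1 : m % (N : ℤ) < (N : ℤ) := Int.emod_lt_of_pos _ hN
    have hdec : m = (N : ℤ) * (m / (N : ℤ)) + m % (N : ℤ) := (Int.mul_ediv_add_emod m N).symm
    have hr : ((m % (N : ℤ) : ℤ) : ℂ) * z₀ ∈ L.lattice := by
      have h2 := sub_mem hm (hq (m / (N : ℤ)))
      have e : (m : ℂ) * z₀ - (((N : ℤ) * (m / (N : ℤ)) : ℤ) : ℂ) * z₀ = ((m % (N : ℤ) : ℤ) : ℂ) * z₀ := by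
        have : (m : ℂ) = (((N : ℤ) * (m / (N : ℤ)) : ℤ) : ℂ) + ((m % (N : ℤ) : ℤ) : ℂ) := by
          exact_mod_cast hdec
        rw [this]; ring
      rw [e] at h2
      exact h2
    by_contra hnd
    have hne : m % (N : ℤ) ≠ 0 := fun h0' => hnd (Int.dvd_of_emod_eq_zero h0')
    have hk : ((m % (N : ℤ)).toNat : ℤ) = m % (N : ℤ) := Int.toNat_of_nonneg h0
    refine h.notMem (m % (N : ℤ)).toNat (by omega) (by omega) ?_
    have e : (((m % (N : ℤ)).toNat : ℕ) : ℂ) = ((m % (N : ℤ) : ℤ) : ℂ) := by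
      exact_mod_cast congrArg (fun x : ℤ => (x : ℂ)) hk
    rw [e]
    exact hr
  · rintro ⟨q, rfl⟩
    exact hq q

/-- **(S3)** PROOF: `k z₀ = k • z₀ ∈ Λ'`; `add_mem_cancel_right`. -/
theorem add_mul_mem_iff (h : IsSuper L L' N z₀) (z : ℂ) (k : ℕ) : z + k * z₀ ∈ L'.lattice ↔ z ∈ L'.lattice := by
  have hk : (k : ℂ) * z₀ ∈ L'.lattice := by
    have h1 := nsmul_mem h.mem k
    rwa [nsmul_eq_mul] at h1
  exact add_mem_cancel_right hk

/-- **(S4)** uniqueness of `k`.  PROOF: the difference `(k - k') z₀ ∈ Λ`, (S2), `|k - k'| < N`. -/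
theorem eq_of_add_mem (h : IsSuper L L' N z₀) {z : ℂ} {k k' : ℕ} (hk : k < N) (hk' : k' < N)
    (h1 : z + k * z₀ ∈ L.lattice) (h2 : z + k' * z₀ ∈ L.lattice) : k = k' := by
  have h3 := sub_mem h1 h2
  have e : z + (k : ℂ) * z₀ - (z + (k' : ℂ) * z₀) = (((k : ℤ) - (k' : ℤ) : ℤ) : ℂ) * z₀ := by
    push_cast; ring
  rw [e, h.intCast_mul_mem_iff] at h3
  obtain ⟨q, hq⟩ := h3
  have hq0 : q = 0 := by
    by_contra hq0
    rcases lt_or_gt_of_ne hq0 with hlt | hgt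
    · have : (N : ℤ) * q ≤ (N : ℤ) * (-1) := by
        apply mul_le_mul_of_nonneg_left (by omega) (by positivity)
      omega
    · have : (N : ℤ) * 1 ≤ (N : ℤ) * q := by
        apply mul_le_mul_of_nonneg_left (by omega) (by positivity)
      omega
  rw [hq0] at hq
  omega

/-- Auxiliary form of (S8), placed before (S5). -/
theorem two_mul_notMem_aux (h : IsSuper L L' N z₀) {k : ℕ} (hk0 : 0 < k) (hk : k < N) :
    2 * ((k : ℂ) * z₀) ∉ L.lattice := by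
  intro hmem
  have e : 2 * ((k : ℂ) * z₀) = ((2 * (k : ℤ) : ℤ) : ℂ) * z₀ := by
    push_cast; ring
  rw [e, h.intCast_mul_mem_iff] at hmem
  have hcop : IsCoprime (N : ℤ) 2 := by
    obtain ⟨t, ht⟩ := h.odd
    refine ⟨1, -(t : ℤ), ?_⟩
    have hNt : (N : ℤ) = 2 * (t : ℤ) + 1 := by exact_mod_cast ht
    rw [hNt]; ring
  have h3 := hcop.dvd_of_dvd_mul_left hmem
  have h4 : N ∣ k := by exact_mod_cast h3
  exact absurd (Nat.le_of_dvd hk0 h4) (by omega)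

/-- **(S5)** `Λ'/Λ` has no `2`-torsion.  PROOF: `exists_mem w`: `w + k z₀ = l ∈ Λ`; `2 k z₀ = 2 l - 2 w ∈ Λ`, (S2): `N ∣ 2 k`, `N` odd so
`N ∣ k`, `k < N` so `k = 0`. -/
theorem mem_of_two_mul_mem (h : IsSuper L L' N z₀) {w : ℂ} (hw : w ∈ L'.lattice) (h2 : 2 * w ∈ L.lattice) :
    w ∈ L.lattice := by
  obtain ⟨k, hk, hmem⟩ := h.exists_mem w hw
  have h3 : 2 * ((k : ℂ) * z₀) ∈ L.lattice := by
    have h4 := sub_mem (add_mem hmem hmem) h2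
    have e : w + (k : ℂ) * z₀ + (w + (k : ℂ) * z₀) - 2 * w = 2 * ((k : ℂ) * z₀) := by ring
    rwa [e] at h4
  have hk0 : k = 0 := by
    by_contra hk0
    exact h.two_mul_notMem_aux (Nat.pos_of_ne_zero hk0) hk h3
  rw [hk0] at hmem
  simpa using hmem

/-- **(S6)** PROOF: `exists_mem (2 z)`: `2 z + m z₀ ∈ Λ`, `m < N`.  `N = 2 t + 1`.  Take `k := (m * (t + 1)) % N`: then
`2 k ≡ m (2 t + 2) = m (N + 1) ≡ m (mod N)`, so `2 (z + k z₀) - (2 z + m z₀) = (2 k - m) z₀ ∈ Λ` by (S2). -/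
theorem exists_two_mul_mem (h : IsSuper L L' N z₀) {z : ℂ} (h2 : 2 * z ∈ L'.lattice) :
    ∃ k : ℕ, k < N ∧ 2 * (z + k * z₀) ∈ L.lattice := by
  obtain ⟨m, hm, hmem⟩ := h.exists_mem (2 * z) h2
  obtain ⟨t, ht⟩ := h.odd
  refine ⟨(m * (t + 1)) % N, Nat.mod_lt _ h.pos, ?_⟩
  have hdvd : (N : ℤ) ∣ 2 * (((m * (t + 1)) % N : ℕ) : ℤ) - (m : ℤ) := by
    have hdec : (N : ℤ) * (((m * (t + 1)) / N : ℕ) : ℤ) + (((m * (t + 1)) % N : ℕ) : ℤ) = (m : ℤ) * ((t : ℤ) + 1) := by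
      exact_mod_cast Nat.div_add_mod (m * (t + 1)) N
    have hNt : (N : ℤ) = 2 * (t : ℤ) + 1 := by exact_mod_cast ht
    refine ⟨(m : ℤ) - 2 * (((m * (t + 1)) / N : ℕ) : ℤ), ?_⟩
    have : (((m * (t + 1)) % N : ℕ) : ℤ) = (m : ℤ) * ((t : ℤ) + 1) - (N : ℤ) * (((m * (t + 1)) / N : ℕ) : ℤ) := by
      linarith
    rw [this]
    have h5 : (m : ℤ) * (N : ℤ) = (m : ℤ) * (2 * (t : ℤ) + 1) := by rw [hNt]
    linear_combination -h5
  have h3 := add_mem hmem ((h.intCast_mul_mem_iff _).2 hdvd)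
  generalize (m * (t + 1)) % N = r at h3 ⊢
  have e : 2 * z + (m : ℂ) * z₀ + ((2 * (r : ℤ) - (m : ℤ) : ℤ) : ℂ) * z₀
      = 2 * (z + (r : ℂ) * z₀) := by
    push_cast; ring
  rwa [e] at h3

/-- **(S7)** PROOF: the difference is `2 (k - k') z₀ ∈ Λ`; (S2); `N` odd; `|k - k'| < N`. -/
theorem eq_of_two_mul_mem (h : IsSuper L L' N z₀) {z : ℂ} {k k' : ℕ} (hk : k < N) (hk' : k' < N)
    (h1 : 2 * (z + k * z₀) ∈ L.lattice) (h2 : 2 * (z + k' * z₀) ∈ L.lattice) : k = k' := by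
  have h3 := sub_mem h1 h2
  have e : 2 * (z + (k : ℂ) * z₀) - 2 * (z + (k' : ℂ) * z₀) = ((2 * ((k : ℤ) - (k' : ℤ)) : ℤ) : ℂ) * z₀ := by
    push_cast; ring
  rw [e, h.intCast_mul_mem_iff] at h3
  have hcop : IsCoprime (N : ℤ) 2 := by
    obtain ⟨t, ht⟩ := h.odd
    refine ⟨1, -(t : ℤ), ?_⟩
    have hNt : (N : ℤ) = 2 * (t : ℤ) + 1 := by exact_mod_cast ht
    rw [hNt]; ring
  obtain ⟨q, hq⟩ := hcop.dvd_of_dvd_mul_left h3
  have hq0 : q = 0 := by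
    by_contra hq0
    rcases lt_or_gt_of_ne hq0 with hlt | hgt
    · have : (N : ℤ) * q ≤ (N : ℤ) * (-1) := by
        apply mul_le_mul_of_nonneg_left (by omega) (by positivity)
      omega
    · have : (N : ℤ) * 1 ≤ (N : ℤ) * q := by
        apply mul_le_mul_of_nonneg_left (by omega) (by positivity)
      omega
  rw [hq0] at hq
  omega

/-- **(S8)** PROOF: (S2) with `m = 2 k`, `N` odd, `0 < k < N`. -/
theorem two_mul_notMem (h : IsSuper L L' N z₀) {k : ℕ} (hk0 : 0 < k) (hk : k < N) :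
    2 * ((k : ℂ) * z₀) ∉ L.lattice := by
  exact h.two_mul_notMem_aux hk0 hk

end IsSuper

end Fermat.Agent.S15.M1.Psi
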