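import Fermat.Agent.S15.M1.Psi.Liouville
import Fermat.Agent.S15.M1.Psi.Order
import Fermat.Agent.S15.M1.Psi.Super

/-!
# S15 / M1 / route PSI : `℘'_{Λ'}(z) · ∏_{k ≠ 0} ℘'_Λ(k z₀) = ∏_{k} ℘'_Λ(z + k z₀)`
-/

set_option autoImplicit false

noncomputable section

namespace Fermat.Agent.S15.M1.Psi

open Filter Topology PeriodPair Fermat.Agent.S15.M1a

/-- `Π = ∏_{k=1}^{N-1} ℘'_Λ(k z₀)`. -/
def Pi0 (L : PeriodPair) (N : ℕ) (z₀ : ℂ) : ℂ := ∏ k ∈ Finset.Ico 1 N, ℘'[L] (k * z₀)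

/-- `F(z) = ∏_{k=0}^{N-1} ℘'_Λ(z + k z₀)`. -/
def Fprod (L : PeriodPair) (N : ℕ) (z₀ : ℂ) (z : ℂ) : ℂ := ∏ k ∈ Finset.range N, ℘'[L] (z + k * z₀)

variable {L L' : PeriodPair} {N : ℕ} {z₀ : ℂ}

/-- **(Q1)** PROOF: `Finset.prod_ne_zero_iff`; for `1 ≤ k < N`: `k z₀ ∉ Λ` (`h.notMem`), `2 (k z₀) ∉ Λ` (`h.two_mul_notMem`),
`wp'_eq_zero_iff`. -/
theorem Pi0_ne_zero (h : IsSuper L L' N z₀) : Pi0 L N z₀ ≠ 0 := by
  rw [Pi0, Finset.prod_ne_zero_iff]
  intro k hk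
  obtain ⟨hk1, hk2⟩ := Finset.mem_Ico.1 hk
  intro h0
  exact h.two_mul_notMem (by omega) hk2 ((wp'_eq_zero_iff L (h.notMem k (by omega) hk2)).1 h0)

/-- **(Q2)** PROOF: `Meromorphic` is `∀ z, MeromorphicAt _ z`; `MeromorphicAt.fun_prod`/`MeromorphicAt.prod`, each factor is
`℘'[L] ∘ (· + k z₀)`: `L.meromorphic_derivWeierstrassP (z + k z₀)` and `meromorphicAt_comp_add_const_iff_meromorphicAt` (or
`MeromorphicAt.comp_analyticAt`). -/
theorem meromorphic_Fprod (L : PeriodPair) (N : ℕ) (z₀ : ℂ) : Meromorphic (Fprod L N z₀) := by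
  intro z
  unfold Fprod
  refine MeromorphicAt.fun_prod fun k _ => ?_
  exact meromorphicAt_fun_comp_add_const_iff_meromorphicAt.2 (L.meromorphic_derivWeierstrassP _)

/-- **(Q3)** the order of the `k`-th factor.  PROOF: `meromorphicOrderAt_fun_comp_add_const_eq_meromorphicOrderAt` (or the `∘` version). -/
theorem order_factor (L : PeriodPair) (c z : ℂ) :
    meromorphicOrderAt (fun z => ℘'[L] (z + c)) z = meromorphicOrderAt ℘'[L] (z + c) := by
  exact meromorphicOrderAt_fun_comp_add_const_eq_meromorphicOrderAt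

/-- **(Q4)** `F` and `℘'_{Λ'}` have the same order everywhere.  PROOF.  `meromorphicOrderAt_fun_prod` + (Q3):
`ord_z F = ∑_{k < N} ord_{z + k z₀} ℘'_Λ`.  Three cases.
* `z ∈ Λ'`: RHS `= -3` (`order_wp'_of_mem L'`).  `h.exists_mem z`: `k₀`.  `Finset.sum_eq_single k₀`: the term `k₀` is `-3`
  (`order_wp'_of_mem L`); for `k ≠ k₀`: `2 (z + k z₀) ∉ Λ` [else `z + k z₀ ∈ Λ'` (`h.add_mul_mem_iff`) gives `z + k z₀ ∈ Λ`
  (`h.mem_of_two_mul_mem`), so `k = k₀` (`h.eq_of_add_mem`)], so the term is `0` (`order_wp'_generic`).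
* `z ∉ Λ'`, `2 z ∈ Λ'`: RHS `= 1` (`order_wp'_half L'`).  `h.exists_two_mul_mem`: `k₀`; `z + k₀ z₀ ∉ Λ` (else `z ∈ Λ'` by `h.le`,
  `h.add_mul_mem_iff`): the term `k₀` is `1` (`order_wp'_half L`); for `k ≠ k₀`: `2 (z + k z₀) ∉ Λ` (`h.eq_of_two_mul_mem`): `0`.
* `2 z ∉ Λ'`: RHS `= 0` (`order_wp'_generic L'`); every term is `0`: `2 (z + k z₀) ∈ Λ ⊆ Λ'` would give `2 z = 2 (z + k z₀) - 2 k z₀ ∈ Λ'`. -/
theorem order_Fprod (h : IsSuper L L' N z₀) (z : ℂ) :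
    meromorphicOrderAt (Fprod L N z₀) z = meromorphicOrderAt ℘'[L'] z := by
  have hmer : ∀ k ∈ Finset.range N, MeromorphicAt (fun z => ℘'[L] (z + (k : ℂ) * z₀)) z := by
    intro k _
    exact meromorphicAt_fun_comp_add_const_iff_meromorphicAt.2 (L.meromorphic_derivWeierstrassP _)
  have hsum : meromorphicOrderAt (Fprod L N z₀) z =
      ∑ k ∈ Finset.range N, meromorphicOrderAt ℘'[L] (z + (k : ℂ) * z₀) := by
    have h1 : Fprod L N z₀ = fun z => ∏ k ∈ Finset.range N, ℘'[L] (z + (k : ℂ) * z₀) := rfl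
    rw [h1, meromorphicOrderAt_fun_prod hmer]
    exact Finset.sum_congr rfl fun k _ => order_factor L _ z
  rw [hsum]
  by_cases hz : z ∈ L'.lattice
  · rw [order_wp'_of_mem L' hz]
    obtain ⟨k₀, hk₀, hk₀m⟩ := h.exists_mem z hz
    rw [Finset.sum_eq_single k₀, order_wp'_of_mem L hk₀m]
    · intro k hk hne
      apply order_wp'_generic
      intro h2
      have h3 : z + (k : ℂ) * z₀ ∈ L.lattice :=
        h.mem_of_two_mul_mem ((h.add_mul_mem_iff z k).2 hz) h2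
      exact hne (h.eq_of_add_mem (Finset.mem_range.1 hk) hk₀ h3 hk₀m)
    · intro hk
      exact absurd (Finset.mem_range.2 hk₀) hk
  by_cases h2z : 2 * z ∈ L'.lattice
  · rw [order_wp'_half L' hz h2z]
    obtain ⟨k₀, hk₀, hk₀m⟩ := h.exists_two_mul_mem h2z
    have hk₀n : z + (k₀ : ℂ) * z₀ ∉ L.lattice := fun h3 =>
      hz ((h.add_mul_mem_iff z k₀).1 (h.le h3))
    rw [Finset.sum_eq_single k₀, order_wp'_half L hk₀n hk₀m]
    · intro k hk hne
      apply order_wp'_generic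
      intro h2
      exact hne (h.eq_of_two_mul_mem (Finset.mem_range.1 hk) hk₀ h2 hk₀m)
    · intro hk
      exact absurd (Finset.mem_range.2 hk₀) hk
  · rw [order_wp'_generic L' h2z]
    apply Finset.sum_eq_zero
    intro k _
    apply order_wp'_generic
    intro h2
    apply h2z
    have h3 : 2 * z + ((2 * k : ℕ) : ℂ) * z₀ ∈ L'.lattice := by
      have h4 : 2 * z + ((2 * k : ℕ) : ℂ) * z₀ = 2 * (z + (k : ℂ) * z₀) := by
        push_cast
        ring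
      rw [h4]
      exact h.le h2
    exact (h.add_mul_mem_iff (2 * z) (2 * k)).1 h3

/-- **(Q5)** PROOF: each factor is `Λ`-periodic: `z + l + k z₀ = (z + k z₀) + l`, `L.derivWeierstrassP_add_coe _ ⟨l, hl⟩`. -/
theorem Fprod_add (L : PeriodPair) (N : ℕ) (z₀ : ℂ) {l : ℂ} (hl : l ∈ L.lattice) (z : ℂ) :
    Fprod L N z₀ (z + l) = Fprod L N z₀ z := by
  unfold Fprod
  refine Finset.prod_congr rfl fun k _ => ?_
  rw [show z + l + k * z₀ = (z + k * z₀) + ((⟨l, hl⟩ : L.lattice) : ℂ) by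
    show z + l + k * z₀ = (z + k * z₀) + l
    ring]
  exact L.derivWeierstrassP_add_coe _ _

/-- **(Q6)** the limit at `0`.  PROOF.  For `z ≠ 0`: `℘'_{Λ'} z / F z = (z³ ℘'_{Λ'} z) / ((z³ ℘'_Λ z) * ∏_{k ∈ Ico 1 N} ℘'_Λ (z + k z₀))`
(`Finset.range_eq_Ico`, `Finset.prod_eq_prod_Ico_succ_bot h.pos`, `Nat.cast_zero, zero_mul, add_zero`; `field_simp`/`mul_div_mul_left`).
`tendsto_cube_mul_wp'` for `L'` and `L`; the last product is continuous at `0` (`tendsto_finset_prod`, `analyticAt_wp'` at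
`0 + k z₀ = k z₀ ∉ Λ`, composed with `· + k z₀`) with value `Pi0`.  `Tendsto.div` (limit of the denominator `-2 * Pi0 ≠ 0`, (Q1));
`(-2) / (-2 * Pi0) = Pi0⁻¹`. -/
theorem tendsto_quot_zero (h : IsSuper L L' N z₀) :
    Tendsto (fun z => ℘'[L'] z / Fprod L N z₀ z) (𝓝[≠] 0) (𝓝 (Pi0 L N z₀)⁻¹) := by
  have hP := Pi0_ne_zero h
  have h1 : Tendsto (fun z => ∏ k ∈ Finset.Ico 1 N, ℘'[L] (z + k * z₀)) (𝓝[≠] 0)
      (𝓝 (Pi0 L N z₀)) := by
    refine tendsto_finsetProd _ fun k hk => ?_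
    rw [Finset.mem_Ico] at hk
    have hk' : (k : ℂ) * z₀ ∉ L.lattice := h.notMem k hk.1 hk.2
    have hc : ContinuousAt (fun z : ℂ => ℘'[L] (z + k * z₀)) 0 :=
      ContinuousAt.comp_of_eq (g := ℘'[L]) (f := fun z : ℂ => z + k * z₀)
        (analyticAt_wp' L hk').continuousAt (by fun_prop) (by ring)
    have := hc.tendsto.mono_left (nhdsWithin_le_nhds (s := {0}ᶜ))
    simpa using this
  have h2 : Tendsto (fun z => (z ^ 3 * ℘'[L'] z) /
      ((z ^ 3 * ℘'[L] z) * ∏ k ∈ Finset.Ico 1 N, ℘'[L] (z + k * z₀))) (𝓝[≠] 0)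
      (𝓝 ((-2) / ((-2) * Pi0 L N z₀))) :=
    (tendsto_cube_mul_wp' L').div ((tendsto_cube_mul_wp' L).mul h1)
      (mul_ne_zero (by norm_num) hP)
  have h3 : (-2 : ℂ) / ((-2) * Pi0 L N z₀) = (Pi0 L N z₀)⁻¹ := by
    field_simp
  rw [h3] at h2
  refine h2.congr' ?_
  filter_upwards [self_mem_nhdsWithin] with z hz
  have hz0 : z ≠ 0 := hz
  rw [Fprod, Finset.range_eq_Ico, Finset.prod_eq_prod_Ico_succ_bot h.pos, Nat.cast_zero, zero_mul,
    add_zero, mul_assoc, mul_div_mul_left _ _ (pow_ne_zero 3 hz0)]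

/-- the order of `℘'` is an integer at every point. -/
theorem tendsto_quot_exists_order (L : PeriodPair) (z : ℂ) :
    ∃ n : ℤ, meromorphicOrderAt ℘'[L] z = (n : WithTop ℤ) := by
  by_cases h1 : z ∈ L.lattice
  · exact ⟨-3, order_wp'_of_mem L h1⟩
  · by_cases h2 : 2 * z ∈ L.lattice
    · exact ⟨1, order_wp'_half L h1 h2⟩
    · exact ⟨0, by rw [order_wp'_generic L h2]; rfl⟩

/-- **(Q7)** PROOF.  `f := fun z => ℘'[L'] z / Fprod L N z₀ z` is meromorphic, `Λ`-periodic ((Q5), `L'.derivWeierstrassP_add_coe` with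
`h.le hl`), of order `ord ℘'_{Λ'} - ord F = 0` at every point: `meromorphicOrderAt_div`/`meromorphicOrderAt_fun_div`, (Q4), and the
order is an integer (it is `-3`, `1` or `0`: by cases as in (Q4), or `≠ ⊤` because...) so that `a - a = 0` in `WithTop ℤ`
(`lift`).  `exists_const_of_order_nonneg L`: `c`; `c = Pi0⁻¹` by (Q6) and `tendsto_nhds_unique`. -/
theorem tendsto_quot (h : IsSuper L L' N z₀) (z : ℂ) :
    Tendsto (fun z => ℘'[L'] z / Fprod L N z₀ z) (𝓝[≠] z) (𝓝 (Pi0 L N z₀)⁻¹) := by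
  have hmer : Meromorphic (fun z => ℘'[L'] z / Fprod L N z₀ z) := fun w =>
    (L'.meromorphic_derivWeierstrassP w).fun_div (meromorphic_Fprod L N z₀ w)
  have hper : ∀ l ∈ L.lattice, ∀ w,
      ℘'[L'] (w + l) / Fprod L N z₀ (w + l) = ℘'[L'] w / Fprod L N z₀ w := by
    intro l hl w
    rw [Fprod_add L N z₀ hl w, L'.derivWeierstrassP_add_coe w ⟨l, h.le hl⟩]
  have hord : ∀ w, 0 ≤ meromorphicOrderAt (fun z => ℘'[L'] z / Fprod L N z₀ z) w := by
    intro w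
    rw [fun_meromorphicOrderAt_div (L'.meromorphic_derivWeierstrassP w) (meromorphic_Fprod L N z₀ w),
      order_Fprod h w]
    obtain ⟨n, hn⟩ := tendsto_quot_exists_order L' w
    rw [hn]
    have hnn : ((n : WithTop ℤ) - n) = ((n - n : ℤ) : WithTop ℤ) := by norm_cast
    rw [hnn, sub_self]
    rfl
  obtain ⟨c, hc⟩ := exists_const_of_order_nonneg L hmer hper hord
  have hc0 : c = (Pi0 L N z₀)⁻¹ := tendsto_nhds_unique (hc 0) (tendsto_quot_zero h)
  rw [← hc0]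
  exact hc z

/-- **(Q8)** PROOF: for `z ∉ Λ'` each `z + k z₀ ∉ Λ` (`h.le`, `h.add_mul_mem_iff`); finite product of analytic functions
(`Finset.analyticAt_fun_prod` or `AnalyticAt.fun_prod`..., `analyticAt_wp'` composed with `· + k z₀`: `AnalyticAt.comp'`, `fun_prop`). -/
theorem analyticAt_Fprod (h : IsSuper L L' N z₀) {z : ℂ} (hz : z ∉ L'.lattice) : AnalyticAt ℂ (Fprod L N z₀) z := by
  unfold Fprod
  refine Finset.analyticAt_fun_prod _ fun k _ => ?_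
  have hk : z + k * z₀ ∉ L.lattice := fun hm => hz ((h.add_mul_mem_iff z k).1 (h.le hm))
  exact AnalyticAt.fun_comp (g := ℘'[L]) (f := fun z => z + k * z₀) (analyticAt_wp' L hk)
    (by fun_prop)

/-- **(Q9)** the product formula.  PROOF.  Both sides are continuous at `z` ((Q8), `analyticAt_wp' L' hz`).
On a punctured neighbourhood of `z`, `F ≠ 0` [its order at `z` is `≠ ⊤` by (Q4): `meromorphicOrderAt_ne_top_iff_eventually_ne_zero`], so
`℘'_{Λ'} w = (℘'_{Λ'} w / F w) * F w`; take limits along `𝓝[≠] z` with (Q7): `℘'_{Λ'} z = Pi0⁻¹ * F z` (`tendsto_nhds_unique`); (Q1). -/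
theorem wp'_mul_Pi0 (h : IsSuper L L' N z₀) {z : ℂ} (hz : z ∉ L'.lattice) :
    ℘'[L'] z * Pi0 L N z₀ = Fprod L N z₀ z := by
  have hF : ContinuousAt (Fprod L N z₀) z := (analyticAt_Fprod h hz).continuousAt
  have hP : ContinuousAt ℘'[L'] z := (analyticAt_wp' L' hz).continuousAt
  have hne : ∀ᶠ w in 𝓝[≠] z, Fprod L N z₀ w ≠ 0 := by
    rw [← meromorphicOrderAt_ne_top_iff_eventually_ne_zero (meromorphic_Fprod L N z₀ z),
      order_Fprod h z]
    obtain ⟨n, hn⟩ := tendsto_quot_exists_order L' z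
    rw [hn]
    exact WithTop.coe_ne_top
  have t1 : Tendsto (fun w => ℘'[L'] w / Fprod L N z₀ w * Fprod L N z₀ w) (𝓝[≠] z)
      (𝓝 ((Pi0 L N z₀)⁻¹ * Fprod L N z₀ z)) :=
    (tendsto_quot h z).mul (hF.tendsto.mono_left nhdsWithin_le_nhds)
  have t2 : Tendsto (fun w => ℘'[L'] w / Fprod L N z₀ w * Fprod L N z₀ w) (𝓝[≠] z)
      (𝓝 (℘'[L'] z)) := by
    refine (hP.tendsto.mono_left nhdsWithin_le_nhds).congr' ?_
    filter_upwards [hne] with w hw
    rw [div_mul_cancel₀ _ hw]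
  have heq := tendsto_nhds_unique t2 t1
  rw [heq, mul_comm, ← mul_assoc, mul_inv_cancel₀ (Pi0_ne_zero h), one_mul]

end Fermat.Agent.S15.M1.Psi
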