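import Fermat.Agent.S15.M1.Psi.Disc
import Fermat.Agent.S15.M1.Unif.Lattice
import Fermat.Agent.S24.Psi

/-!
# S15 / M1 / route PSI : the key identity for `Λ = ℤ τ + ℤ`, `z₀ = 1/N`, in terms of `Δ(τ)`, `Δ(N τ)`

Hedge for `Star.star` (same identity, proved by Liouville on the elliptic curve instead of modular forms).
-/

set_option autoImplicit false

noncomputable section

namespace Fermat.Agent.S15.M1.Psi

open PeriodPair UpperHalfPlane Fermat.Agent.S15.M1a Fermat.Agent.S15.M1.Unif Fermat.Agent.S24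
open scoped Real

/-- **(T0)** homothety.  PROOF: `PeriodPair.G`, `e : L.lattice ≃ L'.lattice`, `l ↦ ⟨c * l, _⟩` (inverse `l' ↦ ⟨c⁻¹ * l', _⟩`; use `h`),
`← e.tsum_eq`, `(c * l) ^ n = c ^ n * l ^ n`, `mul_inv`, `tsum_mul_left`. -/
theorem G_of_homothety {L L' : PeriodPair} {c : ℂ} (hc : c ≠ 0)
    (h : ∀ z, z ∈ L'.lattice ↔ ∃ l ∈ L.lattice, z = c * l) (n : ℕ) :
    L'.G n = (c ^ n)⁻¹ * L.G n := by
  let e : L.lattice ≃ L'.lattice :=
    { toFun := fun l => ⟨c * l, (h _).2 ⟨l, l.2, rfl⟩⟩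
      invFun := fun l' => ⟨c⁻¹ * l', by
        obtain ⟨l, hl, hl'⟩ := (h _).1 l'.2
        rw [hl', inv_mul_cancel_left₀ hc]
        exact hl⟩
      left_inv := fun l => Subtype.ext (by simp [inv_mul_cancel_left₀ hc])
      right_inv := fun l' => Subtype.ext (by simp [mul_inv_cancel_left₀ hc]) }
  rw [PeriodPair.G, PeriodPair.G, ← e.tsum_eq, ← tsum_mul_left]
  refine tsum_congr fun l => ?_
  show ((c * (l : ℂ)) ^ n)⁻¹ = _
  rw [mul_pow, mul_inv]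

/-- PROOF: unfold `disc`, `g₂`, `g₃`, (T0) with `n = 4, 6`; `field_simp`/`ring`. -/
theorem disc_of_homothety {L L' : PeriodPair} {c : ℂ} (hc : c ≠ 0)
    (h : ∀ z, z ∈ L'.lattice ↔ ∃ l ∈ L.lattice, z = c * l) :
    disc L' = (c ^ 12)⁻¹ * disc L := by
  rw [disc, disc, PeriodPair.g₂, PeriodPair.g₂, PeriodPair.g₃, PeriodPair.g₃,
    G_of_homothety hc h 4, G_of_homothety hc h 6]
  field_simp

/-- `Λ' = ℤ τ + ℤ (1/N)`. -/
def LtauN (N : ℕ) [NeZero N] (τ : ℍ) : PeriodPair where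
  ω₁ := τ
  ω₂ := 1 / N
  indep := by
    have hN : (N : ℝ) ≠ 0 := Nat.cast_ne_zero.2 (NeZero.ne N)
    rw [LinearIndependent.pair_iff]
    intro s t h
    have him := congrArg Complex.im h
    have hre := congrArg Complex.re h
    have e1 : ((1 : ℂ) / (N : ℂ)).im = 0 := by
      rw [show ((1 : ℂ) / (N : ℂ)) = (((1 : ℝ) / (N : ℝ) : ℝ) : ℂ) by push_cast; ring]
      exact Complex.ofReal_im _
    have e2 : ((1 : ℂ) / (N : ℂ)).re = 1 / (N : ℝ) := by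
      rw [show ((1 : ℂ) / (N : ℂ)) = (((1 : ℝ) / (N : ℝ) : ℝ) : ℂ) by push_cast; ring]
      exact Complex.ofReal_re _
    simp only [Complex.add_im, Complex.real_smul, Complex.mul_im, Complex.ofReal_re, Complex.ofReal_im,
      zero_mul, add_zero, Complex.zero_im, e1, mul_zero, UpperHalfPlane.coe_im] at him
    simp only [Complex.add_re, Complex.real_smul, Complex.mul_re, Complex.ofReal_re, Complex.ofReal_im,
      zero_mul, sub_zero, Complex.zero_re, e2, UpperHalfPlane.coe_re] at hre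
    have hs : s = 0 := by
      rcases mul_eq_zero.1 him with h | h
      · exact h
      · exact absurd h τ.im_pos.ne'
    subst hs
    simp only [zero_mul, zero_add] at hre
    rcases mul_eq_zero.1 hre with h | h
    · exact ⟨rfl, h⟩
    · exact absurd h (by positivity)

/-- **(T1)** PROOF: `PeriodPair.mem_lattice` for both (`z = m ω₁ + n ω₂`), `coe_mulH`: `m τ + n / N = (1/N) (m (N τ) + n)`. -/
theorem mem_LtauN_iff (N : ℕ) [NeZero N] (τ : ℍ) (z : ℂ) :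
    z ∈ (LtauN N τ).lattice ↔ ∃ l ∈ (Ltau (mulH N τ)).lattice, z = (1 / (N : ℂ)) * l := by
  have hN0 : (N : ℂ) ≠ 0 := Nat.cast_ne_zero.2 (NeZero.ne N)
  have e1 : (LtauN N τ).ω₁ = τ := rfl
  have e2 : (LtauN N τ).ω₂ = 1 / (N : ℂ) := rfl
  constructor
  · intro hz
    obtain ⟨m, n, rfl⟩ := PeriodPair.mem_lattice.1 hz
    refine ⟨(m : ℂ) * ((N : ℂ) * τ) + (n : ℂ) * 1, PeriodPair.mem_lattice.2 ⟨m, n, ?_⟩, ?_⟩
    · rw [Ltau_ω₁, Ltau_ω₂, coe_mulH]
    · rw [e1, e2]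
      field_simp
  · rintro ⟨l, hl, rfl⟩
    obtain ⟨m, n, rfl⟩ := PeriodPair.mem_lattice.1 hl
    refine PeriodPair.mem_lattice.2 ⟨m, n, ?_⟩
    rw [e1, e2, Ltau_ω₁, Ltau_ω₂, coe_mulH]
    field_simp

/-- **(T2)** PROOF.  `PeriodPair.mem_lattice` (`z ∈ Λ ↔ ∃ m n : ℤ, m ω₁ + n ω₂ = z`).  `le`: `m τ + n = m τ + (N n) (1/N)`.
`mem`: `(m, n) = (0, 1)`.  `exists_mem`: `z = m τ + n / N`; `k := ((-n) % N).toNat`, then `N ∣ n + k` and `z + k / N = m τ + (n + k)/N`.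
`notMem`: `k / N = m τ + n` : imaginary parts give `m = 0` (`τ.im_pos`), then `k = N n` in `ℂ` hence in `ℤ` (`exact_mod_cast`), impossible
for `0 < k < N`. -/
theorem isSuper_LtauN (N : ℕ) [NeZero N] (hN : Odd N) (τ : ℍ) :
    IsSuper (Ltau τ) (LtauN N τ) N (1 / (N : ℂ)) := by
  have hN0 : (N : ℂ) ≠ 0 := Nat.cast_ne_zero.2 (NeZero.ne N)
  have hNpos : 0 < N := Nat.pos_of_ne_zero (NeZero.ne N)
  have hNZ : (0 : ℤ) < (N : ℤ) := by exact_mod_cast hNpos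
  refine ⟨hN, ?_, ?_, ?_, ?_⟩
  · intro z hz
    rw [PeriodPair.mem_lattice] at hz ⊢
    obtain ⟨m, n, rfl⟩ := hz
    refine ⟨m, N * n, ?_⟩
    show (m : ℂ) * τ + ((N * n : ℤ) : ℂ) * (1 / N) = m * τ + n * 1
    push_cast
    field_simp
  · exact (LtauN N τ).ω₂_mem_lattice
  · intro z hz
    rw [PeriodPair.mem_lattice] at hz
    obtain ⟨m, n, rfl⟩ := hz
    have hk0 : 0 ≤ (-n) % (N : ℤ) := Int.emod_nonneg _ hNZ.ne'
    have hk1 : (-n) % (N : ℤ) < N := Int.emod_lt_of_pos _ hNZ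
    obtain ⟨k, hk⟩ := Int.eq_ofNat_of_zero_le hk0
    have hdef := Int.emod_def (-n) (N : ℤ)
    have hnk : n + (k : ℤ) = (N : ℤ) * (-((-n) / (N : ℤ))) := by
      rw [← hk, hdef]
      ring
    refine ⟨k, by omega, ?_⟩
    rw [PeriodPair.mem_lattice]
    refine ⟨m, -((-n) / (N : ℤ)), ?_⟩
    show (m : ℂ) * τ + ((-((-n) / (N : ℤ)) : ℤ) : ℂ) * 1 =
      (m : ℂ) * τ + (n : ℂ) * (1 / N) + (k : ℂ) * (1 / N)
    have hkc : (n : ℂ) + (k : ℂ) = (N : ℂ) * ((-((-n) / (N : ℤ)) : ℤ) : ℂ) := by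
      exact_mod_cast hnk
    have e : (m : ℂ) * τ + (n : ℂ) * (1 / N) + (k : ℂ) * (1 / N) =
        (m : ℂ) * τ + ((n : ℂ) + (k : ℂ)) * (1 / N) := by ring
    rw [e, hkc]
    field_simp
  · intro k hk0 hkN hmem
    rw [PeriodPair.mem_lattice] at hmem
    obtain ⟨m, n, h⟩ := hmem
    have h' : (m : ℂ) * τ + (n : ℂ) * 1 = (k : ℂ) * (1 / (N : ℂ)) := h
    have e : (k : ℂ) * (1 / (N : ℂ)) = (((k : ℝ) / (N : ℝ) : ℝ) : ℂ) := by
      push_cast
      ring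
    have him := congrArg Complex.im h'
    rw [e, Complex.ofReal_im] at him
    simp only [Complex.add_im, Complex.mul_im, Complex.intCast_re, Complex.intCast_im, zero_mul,
      add_zero, Complex.one_im, mul_zero, UpperHalfPlane.coe_im, Complex.one_re] at him
    have hm : m = 0 := by
      rcases mul_eq_zero.1 him with h0 | h0
      · exact_mod_cast h0
      · exact absurd h0 τ.im_pos.ne'
    subst hm
    have h2 : (n : ℂ) * (N : ℂ) = (k : ℂ) := by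
      have h3 : (n : ℂ) = (k : ℂ) * (1 / (N : ℂ)) := by simpa using h'
      rw [h3]
      field_simp
    have h4 : n * (N : ℤ) = (k : ℤ) := by exact_mod_cast h2
    have hk0' : (0 : ℤ) < (k : ℤ) := by exact_mod_cast hk0
    have hkN' : (k : ℤ) < (N : ℤ) := by exact_mod_cast hkN
    rcases le_or_gt n 0 with hn | hn
    · nlinarith
    · nlinarith

/-- **STAR in `℘'` form.** -/
theorem star_wp' (N : ℕ) [NeZero N] (hN : Odd N) (τ : ℍ) :
    (∏ k ∈ Finset.Ico 1 N, ℘'[Ltau τ] ((k : ℂ) * (1 / (N : ℂ)))) ^ 4 * ((N : ℂ) ^ 12 * ModularForm.discriminant (mulH N τ))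
      = (2 * (π : ℂ)) ^ (12 * (N - 1)) * ModularForm.discriminant τ ^ N := by
  have h := disc_super (isSuper_LtauN N hN τ)
  have hN0 : (N : ℂ) ≠ 0 := Nat.cast_ne_zero.2 (NeZero.ne N)
  have h1 : disc (LtauN N τ) = (N : ℂ) ^ 12 * ((2 * (π : ℂ)) ^ 12 * ModularForm.discriminant (mulH N τ)) := by
    rw [disc_of_homothety (c := 1 / (N : ℂ)) (by simpa using hN0) (mem_LtauN_iff N τ), disc, disc_Ltau]
    simp
  have h2 : disc (Ltau τ) = (2 * (π : ℂ)) ^ 12 * ModularForm.discriminant τ := by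
    rw [disc, disc_Ltau]
  rw [h1, h2, Pi0] at h
  have hpi : ((2 * (π : ℂ)) ^ 12) ≠ 0 := pow_ne_zero _ (by simp [Real.pi_ne_zero])
  have hpow : (2 * (π : ℂ)) ^ (12 * (N - 1)) * (2 * (π : ℂ)) ^ 12 = ((2 * (π : ℂ)) ^ 12) ^ N := by
    rw [← pow_add, ← pow_mul]
    congr 1
    have : 1 ≤ N := Nat.pos_of_ne_zero (NeZero.ne N)
    omega
  apply mul_right_cancel₀ hpi
  calc _ = (N : ℂ) ^ 12 * ((2 * (π : ℂ)) ^ 12 * ModularForm.discriminant (mulH N τ)) *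
        (∏ k ∈ Finset.Ico 1 N, ℘'[Ltau τ] ((k : ℂ) * (1 / (N : ℂ)))) ^ 4 := by ring
    _ = _ := by rw [h, mul_pow ((2 * (π : ℂ)) ^ 12), ← hpow]; ring

end Fermat.Agent.S15.M1.Psi
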